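/-
S26 / CART, leaf CA-H: a prime `P` of a finitely generated domain with `trdeg R ≤ trdeg (R/P) + 1` has height `≤ 1`.
-/
import Fermat.Agent.S26.UFD.Trdeg

set_option autoImplicit false

universe u

namespace Fermat.Agent.S26.Cart

/-- (By contradiction `Q < P`.  `UFD.trdeg_quotient_lt K R Q hQ` : `trdeg (R/Q) < trdeg R`
(`Algebra.trdeg_lt_aleph0_of_finiteType`).  `P' := P.map (Ideal.Quotient.mk Q)` is a nonzero prime of the domain `R/Q`
(`Ideal.map_isPrime_of_surjective`, `Ideal.map_eq_bot_iff_le_ker`, `Ideal.mk_ker`), `(R/Q)/P' ≃ₐ[K] R/P`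
(`DoubleQuot.quotQuotEquivQuotOfLEₐ`), so `trdeg (R/P) < trdeg (R/Q)` by `trdeg_quotient_lt` again.  All three cardinals
are finite: `Cardinal.lt_aleph0` gives natural numbers, `Nat.cast_lt`, `omega`.) -/
theorem eq_of_le_of_trdeg_le (K R : Type u) [Field K] [CommRing R] [IsDomain R] [Algebra K R]
    [Algebra.FiniteType K R] (P Q : Ideal R) [P.IsPrime] [Q.IsPrime] (hQ : Q ≠ ⊥) (hQP : Q ≤ P)
    (hdim : Algebra.trdeg K R ≤ Algebra.trdeg K (R ⧸ P) + 1) : Q = P := by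
  by_contra hne
  have hfin : Algebra.trdeg K R < Cardinal.aleph0 := trdeg_lt_aleph0_of_finiteType
  have h1 : Algebra.trdeg K (R ⧸ Q) < Algebra.trdeg K R := UFD.trdeg_quotient_lt K R Q hQ hfin
  have hsurj : Function.Surjective (Ideal.Quotient.mk Q) := Ideal.Quotient.mk_surjective
  have hP' : (P.map (Ideal.Quotient.mk Q)).IsPrime :=
    Ideal.map_isPrime_of_surjective hsurj (by rw [Ideal.mk_ker]; exact hQP)
  have hP'0 : P.map (Ideal.Quotient.mk Q) ≠ ⊥ := by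
    intro h0
    rw [Ideal.map_eq_bot_iff_le_ker, Ideal.mk_ker] at h0
    exact hne (le_antisymm hQP h0)
  have h2 : Algebra.trdeg K ((R ⧸ Q) ⧸ P.map (Ideal.Quotient.mk Q)) < Algebra.trdeg K (R ⧸ Q) :=
    UFD.trdeg_quotient_lt K (R ⧸ Q) _ hP'0 (h1.trans hfin)
  have h3 : Algebra.trdeg K ((R ⧸ Q) ⧸ P.map (Ideal.Quotient.mk Q)) = Algebra.trdeg K (R ⧸ P) :=
    (DoubleQuot.quotQuotEquivQuotOfLEₐ K hQP).trdeg_eq
  rw [h3] at h2
  obtain ⟨a, ha⟩ := Cardinal.lt_aleph0.1 hfin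
  obtain ⟨b, hb⟩ := Cardinal.lt_aleph0.1 (h1.trans hfin)
  obtain ⟨c, hc⟩ := Cardinal.lt_aleph0.1 (h2.trans (h1.trans hfin))
  rw [ha, hb] at h1
  rw [hb, hc] at h2
  rw [ha, hc] at hdim
  have h1' : b < a := by exact_mod_cast h1
  have h2' : c < b := by exact_mod_cast h2
  have h3' : a ≤ c + 1 := by exact_mod_cast hdim
  omega

end Fermat.Agent.S26.Cart
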