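/-
S26 / CART, leaf CA-G (Mathlib only): a height one prime is principal near a point whose local ring is factorial.
-/
import Mathlib

set_option autoImplicit false

universe u

namespace Fermat.Agent.S26.Cart

/-- (`O := Localization.AtPrime m`.  Take `0 ≠ a ∈ P`; its image in `O` is a nonzero non-unit (`P ≤ m`), so it is a product of
primes (`UniqueFactorizationMonoid.exists_prime_factors`) and, `P O = P.map (algebraMap R O)` being prime
(`IsLocalization.isPrime_of_isPrime_disjoint`), one prime factor `π` lies in `P O`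
(`Ideal.IsPrime.multiset_prod_mem_iff_exists_mem` / `Ideal.IsPrime.exists_mem_prime_of_ne_bot`).
`Q := (Ideal.span {π}).comap (algebraMap R O)` is a nonzero prime `≤ P` (`IsLocalization.comap_map_of_isPrime_disjoint`),
so `Q = P` by `hht`, hence `P O = (π)` (`IsLocalization.map_comap`).  Write `π = f / s` (`IsLocalization.mk'_surjective`),
`f ∈ P`.  `P` is finitely generated (`IsNoetherian.noetherian`): for each generator `aᵢ`, `aᵢ / 1 = π * (bᵢ / tᵢ)` gives
`gᵢ ∉ m` with `gᵢ * aᵢ ∈ span {f}` (`IsLocalization.eq_iff_exists`; `R` is a domain so the extra factor can be cancelled or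
kept); `g := ∏ gᵢ` (`Ideal.IsPrime.prod_mem_iff`), `Submodule.span_induction`.) -/
theorem exists_local_generator_of_ufd (R : Type u) [CommRing R] [IsDomain R] [IsNoetherianRing R]
    (m : Ideal R) [m.IsPrime] [UniqueFactorizationMonoid (Localization.AtPrime m)]
    (P : Ideal R) [P.IsPrime] (hP : P ≠ ⊥) (hPm : P ≤ m)
    (hht : ∀ Q : Ideal R, Q.IsPrime → Q ≠ ⊥ → Q ≤ P → Q = P) :
    ∃ g f : R, g ∉ m ∧ f ∈ P ∧ ∀ a ∈ P, g * a ∈ Ideal.span {f} := by
  classical
  set O := Localization.AtPrime m with hO
  have hinj : Function.Injective (algebraMap R O) :=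
    IsLocalization.injective O m.primeCompl_le_nonZeroDivisors
  have hdisj : Disjoint (m.primeCompl : Set R) (P : Set R) := by
    rw [Set.disjoint_left]
    intro x hx hxP
    exact hx (hPm hxP)
  have hPO : (P.map (algebraMap R O)).IsPrime :=
    IsLocalization.isPrime_of_isPrime_disjoint m.primeCompl O P inferInstance hdisj
  have hcomap : (P.map (algebraMap R O)).comap (algebraMap R O) = P :=
    IsLocalization.under_map_of_isPrime_disjoint m.primeCompl O inferInstance hdisj
  have hPO0 : P.map (algebraMap R O) ≠ ⊥ := by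
    rw [Ne, Ideal.map_eq_bot_iff_of_injective hinj]
    exact hP
  obtain ⟨π, hπP, hπ⟩ := Ideal.IsPrime.exists_mem_prime_of_ne_bot hPO hPO0
  obtain ⟨⟨f, s⟩, hfs⟩ := IsLocalization.mk'_surjective m.primeCompl π
  have hf : algebraMap R O f = π * algebraMap R O s := by
    rw [← hfs]
    exact (IsLocalization.mk'_spec O f s).symm
  have hfP : f ∈ P := by
    rw [← hcomap, Ideal.mem_comap, hf]
    exact Ideal.mul_mem_right _ _ hπP
  have hs0 : algebraMap R O (s : R) ≠ 0 := by
    intro h
    have : (s : R) = 0 := hinj (by rw [h, map_zero])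
    exact s.2 (this ▸ m.zero_mem)
  have hf0 : f ≠ 0 := by
    rintro rfl
    rw [map_zero] at hf
    exact (mul_ne_zero hπ.ne_zero hs0) hf.symm
  have hQprime : ((Ideal.span {π}).comap (algebraMap R O)).IsPrime := by
    have : (Ideal.span {π}).IsPrime := (Ideal.span_singleton_prime hπ.ne_zero).2 hπ
    exact Ideal.comap_isPrime _ _
  have hQ : (Ideal.span {π}).comap (algebraMap R O) = P := by
    apply hht _ hQprime
    · intro h
      have : f ∈ (Ideal.span {π}).comap (algebraMap R O) := by
        rw [Ideal.mem_comap, hf]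
        exact Ideal.mul_mem_right _ _ (Ideal.mem_span_singleton_self π)
      rw [h] at this
      exact hf0 this
    · conv_rhs => rw [← hcomap]
      apply Ideal.comap_mono
      rw [Ideal.span_singleton_le_iff_mem]
      exact hπP
  have key : ∀ a ∈ P, ∃ g : R, g ∉ m ∧ g * a ∈ Ideal.span {f} := by
    intro a ha
    rw [← hQ, Ideal.mem_comap, Ideal.mem_span_singleton'] at ha
    obtain ⟨c, hc⟩ := ha
    obtain ⟨⟨b, t⟩, hbt⟩ := IsLocalization.mk'_surjective m.primeCompl c
    have hb : algebraMap R O b = c * algebraMap R O t := by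
      rw [← hbt]
      exact (IsLocalization.mk'_spec O b t).symm
    refine ⟨s * t, (s * t).2, ?_⟩
    rw [Ideal.mem_span_singleton']
    refine ⟨b, hinj ?_⟩
    rw [map_mul, map_mul, map_mul, hf, hb, ← hc]
    ring
  choose! g hgm hg using key
  obtain ⟨S, hS⟩ := (IsNoetherian.noetherian P : P.FG)
  refine ⟨∏ a ∈ S, g a, f, ?_, hfP, ?_⟩
  · rw [Ideal.IsPrime.prod_mem_iff]
    rintro ⟨a, haS, ha⟩
    exact hgm a (hS ▸ Ideal.subset_span haS) ha
  · intro a ha
    rw [← hS] at ha
    induction ha using Submodule.span_induction with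
    | mem x hx =>
      obtain ⟨k, hk⟩ := Finset.dvd_prod_of_mem g hx
      rw [hk, mul_right_comm]
      exact Ideal.mul_mem_right _ _ (hg x (hS ▸ Ideal.subset_span hx))
    | zero => simp
    | add x y _ _ hx hy =>
      rw [mul_add]
      exact Ideal.add_mem _ hx hy
    | smul r x _ hx =>
      rw [smul_eq_mul, mul_left_comm]
      exact Ideal.mul_mem_left _ _ hx

end Fermat.Agent.S26.Cart
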