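/-
S26 / CART: the algebraic core (assembly of `Height`, `LocalGen` and `Loc.ufd_localization_of_smooth`).
-/
import Fermat.Agent.S26.Cart.Height
import Fermat.Agent.S26.Cart.LocalGen
import Fermat.Agent.S26.Loc.Ufd

set_option autoImplicit false

universe u

namespace Fermat.Agent.S26.Cart

theorem exists_local_generator (K R : Type u) [Field K] [IsAlgClosed K] [CommRing R] [IsDomain R]
    [Algebra K R] [Algebra.IsStandardSmooth K R] (P : Ideal R) [P.IsPrime] (hP : P ≠ ⊥)
    (hdim : Algebra.trdeg K R ≤ Algebra.trdeg K (R ⧸ P) + 1) (m : Ideal R) [m.IsMaximal]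
    (hPm : P ≤ m) :
    ∃ g f : R, g ∉ m ∧ f ∈ P ∧ ∀ a ∈ P, g * a ∈ Ideal.span {f} := by
  obtain ⟨ι, σ, hσ, hι, ⟨Pr⟩⟩ := (inferInstance : Algebra.IsStandardSmooth K R).out
  have : Algebra.IsStandardSmoothOfRelativeDimension Pr.dimension K R :=
    Pr.isStandardSmoothOfRelativeDimension rfl
  obtain ⟨_, hufd⟩ := Loc.ufd_localization_of_smooth K Pr.dimension R m
  have : Algebra.FiniteType K R := inferInstance
  have : IsNoetherianRing R := Algebra.FiniteType.isNoetherianRing K R
  exact exists_local_generator_of_ufd R m P hP hPm fun Q hQ hQ0 hQP =>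
    eq_of_le_of_trdeg_le K R P Q hQ0 hQP hdim

end Fermat.Agent.S26.Cart
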