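/-
S26 / endgame P, block CART (architect helper60): DEFINITIONS.

* `td φ`     : the transcendence degree of a ring `R` over the field `K` with respect to the structure map `φ : K →+* R`
               (no instance juggling in the statements: unfold `td` and `letI := φ.toAlgebra`);
* `str t V`  : the structure map `K → Γ(T, V)` of a `K`-scheme `t : T ⟶ Spec K`;
* `tdim t`   : the transcendence degree of the function field of an integral `K`-scheme.
-/
import Fermat.Agent.S26.Quad.Nodes

set_option autoImplicit false

universe u

open CategoryTheory CategoryTheory.Limits AlgebraicGeometry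

namespace Fermat.Agent.S26.Cart

variable {K : Type u} [Field K]

/-- the transcendence degree of `R` over `K` with respect to the structure map `φ` -/
noncomputable def td {R : Type u} [CommRing R] (φ : K →+* R) : Cardinal.{u} :=
  @Algebra.trdeg K R _ _ φ.toAlgebra

theorem td_def {R : Type u} [CommRing R] (φ : K →+* R) :
    td φ = @Algebra.trdeg K R _ _ φ.toAlgebra := rfl

theorem td_algebraMap {R : Type u} [CommRing R] [Algebra K R] :
    td (algebraMap K R) = Algebra.trdeg K R := by
  rw [td, _root_.toAlgebra_algebraMap]

/-- the structure map `K → Γ(T, V)` -/
noncomputable def str {T : Scheme.{u}} (t : T ⟶ SK K) (V : T.Opens) : K →+* Γ(T, V) :=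
  (t.appLE ⊤ V le_top).hom.comp (Scheme.ΓSpecIso (CommRingCat.of K)).inv.hom

/-- the transcendence degree of the function field -/
noncomputable def tdim {T : Scheme.{u}} [IsIntegral T] (t : T ⟶ SK K) : Cardinal.{u} :=
  td (constFF K t)

end Fermat.Agent.S26.Cart
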