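/-
S26 / endgame P, block CART (architect helper60), leaf CA-L1: standard smooth charts, closed points and maximal ideals.
-/
import Fermat.Agent.S26.Cart.Defs

set_option autoImplicit false

universe u

open CategoryTheory CategoryTheory.Limits AlgebraicGeometry

namespace Fermat.Agent.S26.Cart

variable {K : Type u} [Field K]

/-- standard smooth charts (copy of `Den.exists_chart`, `S26/F/Den.lean`, 12 lines: `Smooth.exists_isStandardSmooth`, a non-empty
open of `Spec K` is `⊤`). -/
theorem exists_chart {A : Scheme.{u}} (f : A ⟶ SK K) [Smooth f] (z : A) :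
    ∃ V : A.affineOpens, z ∈ V.1 ∧ (str f V.1).IsStandardSmooth := by
  sorry

/-- a closed point gives a maximal ideal in every affine chart.
(`PrimeSpectrum.isClosed_singleton_iff_isMaximal`; `V.2.isoSpec` / `V.2.fromSpec` is an open embedding with
`fromSpec (primeIdealOf ⟨y, hy⟩) = y` (`IsAffineOpen.fromSpec_primeIdealOf`), the preimage of the closed set `{y}` is
`{primeIdealOf ⟨y, hy⟩}` by injectivity.) -/
theorem isMaximal_primeIdealOf {A : Scheme.{u}} (V : A.affineOpens) (y : A) (hy : y ∈ V.1)
    (hc : IsClosed ({y} : Set A)) : (V.2.primeIdealOf ⟨y, hy⟩).asIdeal.IsMaximal := by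
  sorry

end Fermat.Agent.S26.Cart
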