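/-
S26 / endgame P, block CART (architect helper60), leaf CA-I1: the ideal of a closed immersion on an affine open is `⊤` or prime.
Mathlib API: `Mathlib/AlgebraicGeometry/IdealSheaf/Basic.lean` (`Scheme.Hom.ker_apply`, `IdealSheafData.map_ideal`,
`map_ideal_basicOpen`, `mem_support_iff_of_mem`, `Scheme.Hom.range_subset_ker_support`, `Scheme.Hom.support_ker`),
`Scheme.Hom.app_surjective` (ClosedImmersion.lean).
-/
import Fermat.Agent.S26.Cart.Defs

set_option autoImplicit false

universe u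

open CategoryTheory CategoryTheory.Limits AlgebraicGeometry

namespace Fermat.Agent.S26.Cart

variable {X Z : Scheme.{u}}

/-- (`Scheme.Hom.ker_apply`; `j ⁻¹ᵁ U = ⊥`, so `Γ(Z, j ⁻¹ᵁ U)` is the zero ring: `Scheme.isEmpty..`/
`subsingleton` of sections over `⊥`; every element is in the kernel.) -/
theorem ideal_eq_top_of_disjoint (j : Z ⟶ X) [IsClosedImmersion j] (U : X.affineOpens)
    (h : ∀ z, j z ∉ U.1) : j.ker.ideal U = ⊤ := by
  sorry

/-- (`Scheme.Hom.ker_apply`, `RingHom.ker_isPrime`: `Γ(Z, j ⁻¹ᵁ U)` is a domain because `Z` is integral and `j ⁻¹ᵁ U` is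
non-empty: `IsIntegral.component_integral` needs `[Nonempty (j ⁻¹ᵁ U)]`.) -/
theorem ideal_isPrime (j : Z ⟶ X) [IsClosedImmersion j] [IsIntegral Z] (U : X.affineOpens)
    (h : ∃ z, j z ∈ U.1) : (j.ker.ideal U).IsPrime := by
  sorry

end Fermat.Agent.S26.Cart
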