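/-
S26 / endgame P, block CART (architect helper60), leaf CA-I2: the ideal of a closed immersion and the points.
Mathlib API: `Mathlib/AlgebraicGeometry/IdealSheaf/Basic.lean` (`Scheme.Hom.ker_apply`, `IdealSheafData.map_ideal`,
`map_ideal_basicOpen`, `mem_support_iff_of_mem`, `Scheme.Hom.range_subset_ker_support`, `Scheme.Hom.support_ker`),
`Scheme.Hom.app_surjective` (ClosedImmersion.lean).
-/
import Fermat.Agent.S26.Cart.Defs

set_option autoImplicit false

universe u

open CategoryTheory CategoryTheory.Limits AlgebraicGeometry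

namespace Fermat.Agent.S26.Cart

variable {X Z : Scheme.{u}}

private theorem Ideal2.mem_basicOpen_iff {V : X.Opens} (hV : IsAffineOpen V) (y : X)
    (hy : y ∈ V) (f : Γ(X, V)) :
    y ∈ X.basicOpen f ↔ f ∉ (hV.primeIdealOf ⟨y, hy⟩).asIdeal := by
  let : Algebra Γ(X, V) (X.presheaf.stalk y) :=
    TopCat.Presheaf.algebra_section_stalk X.presheaf (⟨y, hy⟩ : V)
  have : IsLocalization.AtPrime (X.presheaf.stalk y) (hV.primeIdealOf ⟨y, hy⟩).asIdeal :=
    hV.isLocalization_stalk ⟨y, hy⟩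
  rw [Scheme.mem_basicOpen X f y hy]
  exact IsLocalization.AtPrime.isUnit_to_map_iff (X.presheaf.stalk y)
    (hV.primeIdealOf ⟨y, hy⟩).asIdeal f

private theorem Ideal2.mem_support_iff (I : X.IdealSheafData) (U : X.affineOpens) (x : X)
    (hx : x ∈ U.1) : x ∈ I.support ↔ I.ideal U ≤ (U.2.primeIdealOf ⟨x, hx⟩).asIdeal := by
  rw [Scheme.IdealSheafData.mem_support_iff_of_mem hx, Scheme.mem_zeroLocus_iff]
  constructor
  · intro h f hf
    by_contra hn
    exact h f hf ((Ideal2.mem_basicOpen_iff U.2 x hx f).2 hn)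
  · intro h f hf hb
    exact (Ideal2.mem_basicOpen_iff U.2 x hx f).1 hb (h hf)

/-- (`Scheme.Hom.range_subset_ker_support`, `IdealSheafData.mem_support_iff_of_mem`, `Scheme.mem_zeroLocus_iff`,
`Dict.mem_basicOpen_iff` of `S26/F/Dict.lean` (copy it: do not import `F`) :
`y ∈ X.basicOpen f ↔ f ∉ (hV.primeIdealOf ⟨y, hy⟩).asIdeal`.) -/
theorem ideal_le_primeIdealOf (j : Z ⟶ X) [IsClosedImmersion j] (U : X.affineOpens) (z : Z)
    (hz : j z ∈ U.1) : j.ker.ideal U ≤ (U.2.primeIdealOf ⟨j z, hz⟩).asIdeal :=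
  (Ideal2.mem_support_iff j.ker U (j z) hz).1 (j.range_subset_ker_support ⟨z, rfl⟩)

/-- (the support of `j.ker` is the closure of the range (`Scheme.Hom.support_ker`), the range of a closed immersion is closed
(`j.isClosedEmbedding.isClosed_range`); then as in `ideal_le_primeIdealOf`.) -/
theorem not_ideal_le_primeIdealOf (j : Z ⟶ X) [IsClosedImmersion j] (U : X.affineOpens) (x : X)
    (hx : x ∈ U.1) (h : x ∉ Set.range j) :
    ¬ j.ker.ideal U ≤ (U.2.primeIdealOf ⟨x, hx⟩).asIdeal := by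
  intro hle
  have h1 : x ∈ (j.ker.support : Set X) := (Ideal2.mem_support_iff j.ker U x hx).2 hle
  rw [j.support_ker, j.isClosedEmbedding.isClosed_range.closure_eq] at h1
  exact h h1

end Fermat.Agent.S26.Cart
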