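/-
S26 / endgame P, block CART (architect helper60), leaf CA-I3: spreading out a local generator; `Z ≠ X`.
Mathlib API: `Mathlib/AlgebraicGeometry/IdealSheaf/Basic.lean` (`Scheme.Hom.ker_apply`, `IdealSheafData.map_ideal`,
`map_ideal_basicOpen`, `mem_support_iff_of_mem`, `Scheme.Hom.range_subset_ker_support`, `Scheme.Hom.support_ker`),
`Scheme.Hom.app_surjective` (ClosedImmersion.lean).
-/
import Fermat.Agent.S26.Cart.Defs

set_option autoImplicit false

universe u

open CategoryTheory CategoryTheory.Limits AlgebraicGeometry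

namespace Fermat.Agent.S26.Cart

variable {X Z : Scheme.{u}}

/-- (`I.map_ideal_basicOpen U g : (I.ideal U).map (res) = I.ideal (X.affineBasicOpen g)`; `Ideal.map_le_iff_le_comap`;
the restriction of `g` to `X.basicOpen g` is a unit (`RingedSpace.isUnit_res_basicOpen` / `Scheme.basicOpen_res`...):
`res a = (res g)⁻¹ * res (g * a)`, `Ideal.mem_span_singleton'`.) -/
theorem ideal_basicOpen_eq_span (I : X.IdealSheafData) (U : X.affineOpens) (g f : Γ(X, U.1))
    (hf : f ∈ I.ideal U) (h : ∀ a ∈ I.ideal U, g * a ∈ Ideal.span {f}) :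
    I.ideal (X.affineBasicOpen g) =
      Ideal.span {(X.presheaf.map (homOfLE (X.basicOpen_le g)).op).hom f} := by
  sorry

/-- (take `0 ≠ a ∈ j.ker.ideal U`; `X.basicOpen a` is non-empty (`Scheme.basicOpen_eq_bot_iff`: `a` is not nilpotent in
the reduced ring `Γ(X, U)`); a point `j z` of it would give `z ∈ Z.basicOpen (j.app U a) = Z.basicOpen 0 = ⊥`
(`Scheme.preimage_basicOpen`, `Scheme.Hom.ker_apply`, `Scheme.basicOpen_zero`).) -/
theorem exists_not_mem_range (j : Z ⟶ X) [IsClosedImmersion j] [IsIntegral X]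
    (U : X.affineOpens) (h : j.ker.ideal U ≠ ⊥) : ∃ x : X, x ∉ Set.range j := by
  sorry

end Fermat.Agent.S26.Cart
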