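/-
S26 / endgame P, block CART (architect helper60), leaf CA-L2: local principality at the closed points.
-/
import Fermat.Agent.S26.Cart.Ideal
import Fermat.Agent.S26.Cart.AlgCore
import Fermat.Agent.S26.Cart.Chart1

set_option autoImplicit false

universe u

open CategoryTheory CategoryTheory.Limits AlgebraicGeometry

namespace Fermat.Agent.S26.Cart

variable {K : Type u} [Field K]

/-- **Local principality at a closed point.**
(Case `y ∉ range j`: the complement of the (closed) range is open; an affine `U ∋ y` inside it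
(`isBasis_affineOpens.exists_subset_of_mem_open`), `ideal_eq_top_of_disjoint`, `Ideal.span_singleton_one`.
Case `y = j z`: `V` from `exists_chart f y`; `letI := (str f V.1).toAlgebra`; `R := Γ(A, V)` is a domain; `P := j.ker.ideal V` is prime
(`ideal_isPrime`), `≠ ⊥` and of the right dimension by `hdim` (unfold `td`; the algebra structure of the quotient is
`Ideal.Quotient.algebra`, whose `algebraMap` is `(Ideal.Quotient.mk P).comp (algebraMap K R)` by `rfl`:
use `td_algebraMap`/`Algebra.algebra_ext`), `m :=` the prime of `y`, maximal by `isMaximal_primeIdealOf`, `P ≤ m` by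
`ideal_le_primeIdealOf`.  `exists_local_generator` gives `g ∉ m`, `f₀`; `U := A.affineBasicOpen g ∋ y`
(`Dict.mem_basicOpen_iff`, copy), `ideal_basicOpen_eq_span`.) -/
theorem exists_principal_of_closed [IsAlgClosed K] {A Z : Scheme.{u}} (f : A ⟶ SK K) [Smooth f]
    [IsIntegral A] [IsIntegral Z] (j : Z ⟶ A) [IsClosedImmersion j]
    (hdim : ∀ V : A.affineOpens, (∃ z, j z ∈ V.1) → j.ker.ideal V ≠ ⊥ ∧
      td (str f V.1) ≤ td ((Ideal.Quotient.mk (j.ker.ideal V)).comp (str f V.1)) + 1)
    (y : A) (hy : IsClosed ({y} : Set A)) :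
    ∃ (U : A.affineOpens) (_ : y ∈ U.1) (g : Γ(A, U.1)), j.ker.ideal U = Ideal.span {g} := by
  sorry

end Fermat.Agent.S26.Cart
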