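/-
S26 / CART: from the closed points to all points.
-/
import Fermat.Agent.S26.Cart.Defs

set_option autoImplicit false

universe u

open CategoryTheory CategoryTheory.Limits AlgebraicGeometry

namespace Fermat.Agent.S26.Cart

theorem locally_principal_of_closed {X : Scheme.{u}} [CompactSpace X] (I : X.IdealSheafData)
    (h : ∀ y : X, IsClosed ({y} : Set X) →
      ∃ (U : X.affineOpens) (_ : y ∈ U.1) (g : Γ(X, U.1)), I.ideal U = Ideal.span {g}) (y : X) :
    ∃ (U : X.affineOpens) (_ : y ∈ U.1) (g : Γ(X, U.1)), I.ideal U = Ideal.span {g} := by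
  obtain ⟨z, hz, hzc⟩ := IsClosed.exists_closed_singleton (isClosed_closure (s := ({y} : Set X)))
    ⟨y, subset_closure rfl⟩
  obtain ⟨U, hzU, g, hg⟩ := h z hzc
  have hspec : y ⤳ z := specializes_iff_mem_closure.2 hz
  exact ⟨U, hspec.mem_open U.1.isOpen hzU, g, hg⟩

end Fermat.Agent.S26.Cart
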