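/-
S26 / endgame P, block CART (architect helper60), leaf CA-D0: formal properties of `td`.
-/
import Fermat.Agent.S26.Cart.Defs

set_option autoImplicit false

universe u

open CategoryTheory CategoryTheory.Limits AlgebraicGeometry

namespace Fermat.Agent.S26.Cart

variable {K : Type u} [Field K]

/-- `td` is invariant under ring isomorphisms
(`letI := φ.toAlgebra; letI := (e.toRingHom.comp φ).toAlgebra`, `AlgEquiv.ofRingEquiv` / `AlgEquiv.trdeg_eq`). -/
theorem td_comp_ringEquiv {R R' : Type u} [CommRing R] [CommRing R'] (φ : K →+* R) (e : R ≃+* R') :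
    td ((e : R →+* R').comp φ) = td φ := by
  let := φ.toAlgebra
  let := ((e : R →+* R').comp φ).toAlgebra
  exact (AlgEquiv.trdeg_eq (AlgEquiv.ofRingEquiv (f := e) (fun _ => rfl) : R ≃ₐ[K] R')).symm

/-- `td` does not change in an algebraic extension of domains
(`letI` the three algebra structures, `IsScalarTower.of_algebraMap_eq' rfl`, `Algebra.trdeg_add_eq K R (A := L)`,
`Algebra.trdeg_eq_zero` for the algebraic extension `R → L`; `FaithfulSMul` from injectivity:
`faithfulSMul_iff_algebraMap_injective`). -/
theorem td_comp_of_isAlgebraic {R L : Type u} [CommRing R] [IsDomain R] [CommRing L] [IsDomain L]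
    (φ : K →+* R) (ψ : R →+* L) (hinj : Function.Injective ψ)
    (halg : @Algebra.IsAlgebraic R L _ _ ψ.toAlgebra) : td (ψ.comp φ) = td φ := by
  let := φ.toAlgebra
  let := ψ.toAlgebra
  let := (ψ.comp φ).toAlgebra
  have : IsScalarTower K R L := IsScalarTower.of_algebraMap_eq' rfl
  have : FaithfulSMul R L := (faithfulSMul_iff_algebraMap_injective R L).2 hinj
  have : FaithfulSMul K R := (faithfulSMul_iff_algebraMap_injective K R).2 φ.injective
  have h := _root_.trdeg_add_eq K R (A := L)
  rw [_root_.trdeg_eq_zero (R := R) (A := L), add_zero] at h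
  exact h.symm

end Fermat.Agent.S26.Cart
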