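/-
S26 / endgame P, block CART (architect helper60), leaf CA-D2: generically finite morphisms preserve the transcendence degree.
-/
import Fermat.Agent.S26.Cart.DimAlg
import Fermat.Agent.S26.Deg.FF

set_option autoImplicit false

universe u

open CategoryTheory CategoryTheory.Limits AlgebraicGeometry

namespace Fermat.Agent.S26.Cart

variable {K : Type u} [Field K]

/-- the map of function fields is compatible with the constants
(`ffMap_germ` of `Deg/FF.lean` with `U = ⊤`, `Scheme.Hom.comp_appTop`). -/
theorem ffMap_comp_constFF {X Y : Scheme.{u}} [IsIntegral X] [IsIntegral Y] (x : X ⟶ SK K)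
    (φ : Y ⟶ X) (h : Dom φ) : (ffMap φ h).comp (constFF K x) = constFF K (φ ≫ x) := by
  sorry

/-- **D2.**  (`dom_of_gdeg_pos`, `gdeg_of_dom`: `finrank ≠ 0` gives `Module.Finite` (`Module.finite_of_finrank_pos`), hence
algebraic (`Algebra.IsAlgebraic.of_finite`); `ffMap_comp_constFF`, `td_comp_of_isAlgebraic`; a ring hom of fields is injective.) -/
theorem tdim_comp_of_gdeg_pos {X Y : Scheme.{u}} [IsIntegral X] [IsIntegral Y] (x : X ⟶ SK K)
    (φ : Y ⟶ X) (h : 0 < gdeg φ) : tdim (φ ≫ x) = tdim x := by
  sorry

end Fermat.Agent.S26.Cart
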