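/-
S26 / endgame P, block CART (architect helper60), leaf CA-D1: transcendence degrees of section rings and of the function field.
-/
import Fermat.Agent.S26.Cart.DimAlg

set_option autoImplicit false

universe u

open CategoryTheory CategoryTheory.Limits AlgebraicGeometry

namespace Fermat.Agent.S26.Cart

variable {K : Type u} [Field K]

/-- the constants of the function field through the sections over `V`
(unfold `constFF`, `str`; `Scheme.germToFunctionField`, `TopCat.Presheaf.germ_res`, `Scheme.Hom.appLE`,
`Scheme.Hom.app_eq_appLE` ...). -/
theorem constFF_eq_comp_str {T : Scheme.{u}} [IsIntegral T] (t : T ⟶ SK K) (V : T.Opens)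
    [Nonempty V] : constFF K t = (T.germToFunctionField V).hom.comp (str t V) := by
  sorry

/-- **D1.**  (`constFF_eq_comp_str`, `td_comp_of_isAlgebraic` with `ψ = germToFunctionField V`: injective
(`germToFunctionField_injective`), algebraic because `T.functionField` is the fraction field of `Γ(T, V)`
(`functionField_isFractionRing_of_isAffineOpen`, `IsFractionRing.isAlgebraic`/`IsLocalization.isAlgebraic`;
the algebra instance of Mathlib is `(T.germToFunctionField V).hom.toAlgebra` by `rfl`).) -/
theorem td_str_eq_tdim {T : Scheme.{u}} [IsIntegral T] (t : T ⟶ SK K) (V : T.Opens)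
    (hV : IsAffineOpen V) (hne : (V : Set T).Nonempty) : td (str t V) = tdim t := by
  sorry

/-- **D6.**  (an affine non-empty `V`, `td_str_eq_tdim`, `(str t V).FiniteType` as in `sec_finiteType` of
`S26/Curves/Sch/Frac.lean`, `Algebra.trdeg_lt_aleph0_of_finiteType`.) -/
theorem tdim_lt_aleph0 {T : Scheme.{u}} [IsIntegral T] (t : T ⟶ SK K) [LocallyOfFiniteType t] :
    tdim t < Cardinal.aleph0 := by
  sorry

end Fermat.Agent.S26.Cart
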