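/-
S26 / CART: transcendence degrees of section rings and of function fields (aggregator).
-/
import Fermat.Agent.S26.Cart.DimSec
import Fermat.Agent.S26.Cart.DimMap
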