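/-
S26 / endgame P, block CART (architect helper60), leaf CA-D5: the coordinate ring of a closed subscheme.
-/
import Fermat.Agent.S26.Cart.DimFF

set_option autoImplicit false

universe u

open CategoryTheory CategoryTheory.Limits AlgebraicGeometry

namespace Fermat.Agent.S26.Cart

variable {K : Type u} [Field K]

/-- **D5.**  (`j.ker.ideal V = RingHom.ker (j.app V).hom` (`Scheme.Hom.ker_apply`), `j.app V` is surjective
(`Scheme.Hom.app_surjective`), so `RingHom.quotientKerEquivOfSurjective` gives `Γ(X, V) ⧸ I ≃+* Γ(Z, j ⁻¹ᵁ V)`, which maps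
`mk ∘ str x V` to `str (j ≫ x) (j ⁻¹ᵁ V)` (`Scheme.Hom.comp_appLE`/`appLE_comp_appLE`); `td_comp_ringEquiv`;
`j ⁻¹ᵁ V` is affine (`IsAffineOpen.preimage`, a closed immersion is an affine morphism) and non-empty; `td_str_eq_tdim`.) -/
theorem td_quotient_eq_tdim {X Z : Scheme.{u}} [IsIntegral Z] (x : X ⟶ SK K) (j : Z ⟶ X)
    [IsClosedImmersion j] (V : X.affineOpens) (h : ∃ z, j z ∈ V.1) :
    td ((Ideal.Quotient.mk (j.ker.ideal V)).comp (str x V.1)) = tdim (j ≫ x) := by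
  have hsurj : Function.Surjective (j.app V.1).hom := j.app_surjective V.1 V.2
  have hker : j.ker.ideal V = RingHom.ker (j.app V.1).hom := j.ker_apply V
  have haff : IsAffineOpen (j ⁻¹ᵁ V.1) := V.2.preimage j
  have hne : ((j ⁻¹ᵁ V.1 : Z.Opens) : Set Z).Nonempty := h
  rw [← td_str_eq_tdim (j ≫ x) (j ⁻¹ᵁ V.1) haff hne]
  let e : (Γ(X, V.1) ⧸ j.ker.ideal V) ≃+* Γ(Z, j ⁻¹ᵁ V.1) :=
    (Ideal.quotEquivOfEq hker).trans (RingHom.quotientKerEquivOfSurjective hsurj)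
  rw [← td_comp_ringEquiv _ e]
  congr 1
  ext a
  have h1 : (j ≫ x).appLE ⊤ (j ⁻¹ᵁ V.1) le_top = x.appLE ⊤ V.1 le_top ≫ j.app V.1 := by
    rw [Scheme.Hom.app_eq_appLE]
    exact (Scheme.Hom.appLE_comp_appLE j x ⊤ V.1 (j ⁻¹ᵁ V.1) le_top le_rfl).symm
  show (j.app V.1).hom (str x V.1 a) = _
  simp only [str, h1, RingHom.comp_apply, CommRingCat.hom_comp]

end Fermat.Agent.S26.Cart
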