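/-
S26 / endgame P, block CART (architect helper60), leaf CA-D4: curves have transcendence degree one.
-/
import Fermat.Agent.S26.Cart.Defs
import Fermat.Agent.S26.P.Trdeg

set_option autoImplicit false

universe u

open CategoryTheory CategoryTheory.Limits AlgebraicGeometry

namespace Fermat.Agent.S26.Cart

variable {K : Type u} [Field K]

/-- **D4.**  (`P.exists_isTranscendenceBasis` (S26/P/Trdeg.lean; check its namespace) with `g = 1`:
`y : Fin 1 → functionField`, `IsTranscendenceBasis K y` for `ffAlgebra K c = (constFF K c).toAlgebra`;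
`IsTranscendenceBasis.cardinalMk_eq_trdeg` (+ `Cardinal.lift`), `Cardinal.mk_fin`.) -/
theorem tdim_curve [IsAlgClosed K] {Γ : Scheme.{u}} [IsIntegral Γ] (c : Γ ⟶ SK K)
    [SmoothOfRelativeDimension 1 c] : tdim c = 1 := by
  obtain ⟨y, hy⟩ := P.Trdeg.exists_isTranscendenceBasis (K := K) (f := c) 1
  let _ := ffAlgebra K c
  have h := hy.lift_cardinalMk_eq_trdeg
  have h2 : tdim c = Algebra.trdeg K Γ.functionField := rfl
  rw [h2]
  simpa using h.symm

end Fermat.Agent.S26.Cart
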