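/-
S26 / CART: aggregator.
-/
import Fermat.Agent.S26.Cart.DimCurve
import Fermat.Agent.S26.Cart.DimClosed
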