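/-
S26 / endgame P, block CART (architect helper60), leaf CA-T2 (Mathlib only): base change of algebraicity.
-/
import Mathlib

set_option autoImplicit false

universe u

open TensorProduct

namespace Fermat.Agent.S26.Cart

/-- If `R₂` is algebraic over `K[x]` then `R₁ ⊗ R₂` is algebraic over `R₁[1 ⊗ x]`.
(`B := Algebra.adjoin R₁ (Set.range fun i => 1 ⊗ₜ x i)`, a domain (subalgebra of a domain).  By `TensorProduct.induction_on`:
`a ⊗ₜ b = (a ⊗ₜ 1) * (1 ⊗ₜ b)`; `a ⊗ₜ 1 = algebraMap R₁ _ a ∈ B` is algebraic (`isAlgebraic_algebraMap`);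
`b` is a root of a non-zero `p` over `B₀ := Algebra.adjoin K (Set.range x)`; the restriction
`B₀ → B` of `Algebra.TensorProduct.includeRight` (it maps `adjoin K (range x)` into `B`: `Algebra.adjoin_induction` /
`AlgHom.map_adjoin`) is injective (`Algebra.TensorProduct.includeRight_injective`, `R₁` is faithfully flat over the field `K` since it is
non-trivial; or `FaithfulSMul K R₁`), so `p.map` of it is non-zero (`Polynomial.map_ne_zero_iff`/`Polynomial.map_injective`) and kills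
`1 ⊗ₜ b` (`Polynomial.aeval_map_algebraMap`, `Polynomial.eval₂_hom`...).  `IsAlgebraic.add`, `IsAlgebraic.mul`, `isAlgebraic_zero`.) -/
theorem isAlgebraic_adjoin_tmul (K R₁ R₂ : Type u) [Field K] [CommRing R₁] [CommRing R₂]
    [Algebra K R₁] [Algebra K R₂] [IsDomain (R₁ ⊗[K] R₂)] {ι : Type u} (x : ι → R₂)
    (hx : Algebra.IsAlgebraic (Algebra.adjoin K (Set.range x)) R₂) :
    Algebra.IsAlgebraic (Algebra.adjoin R₁ (Set.range fun i => (1 : R₁) ⊗ₜ[K] x i))
      (R₁ ⊗[K] R₂) := by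
  classical
  have hnt : Nontrivial R₁ := by
    by_contra h
    rw [not_nontrivial_iff_subsingleton] at h
    have h1 : (1 : R₁ ⊗[K] R₂) = 0 := by
      rw [Algebra.TensorProduct.one_def, Subsingleton.elim (1 : R₁) 0, TensorProduct.zero_tmul]
    exact one_ne_zero h1
  have hinj : Function.Injective
      (Algebra.TensorProduct.includeRight : R₂ →ₐ[K] R₁ ⊗[K] R₂) :=
    Algebra.TensorProduct.includeRight_injective (algebraMap K R₁).injective
  -- `1 ⊗ c ∈ B` for `c ∈ B₀`
  have hmem : ∀ c ∈ Algebra.adjoin K (Set.range x), (1 : R₁) ⊗ₜ[K] c ∈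
      Algebra.adjoin R₁ (Set.range fun i => (1 : R₁) ⊗ₜ[K] x i) := by
    intro c hc
    induction hc using Algebra.adjoin_induction with
    | mem y hy =>
      obtain ⟨i, rfl⟩ := hy
      exact Algebra.subset_adjoin ⟨i, rfl⟩
    | algebraMap r =>
      have e : (1 : R₁) ⊗ₜ[K] algebraMap K R₂ r =
          algebraMap R₁ (R₁ ⊗[K] R₂) (algebraMap K R₁ r) := by
        rw [Algebra.TensorProduct.algebraMap_apply, Algebra.algebraMap_eq_smul_one r,
          TensorProduct.tmul_smul, TensorProduct.smul_tmul', Algebra.algebraMap_self,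
          RingHom.id_apply, Algebra.algebraMap_eq_smul_one r]
      rw [e]
      exact Subalgebra.algebraMap_mem _ _
    | add y z _ _ hy hz =>
      rw [TensorProduct.tmul_add]
      exact add_mem hy hz
    | mul y z _ _ hy hz =>
      have e : (1 : R₁) ⊗ₜ[K] (y * z) = ((1 : R₁) ⊗ₜ[K] y) * ((1 : R₁) ⊗ₜ[K] z) := by
        rw [Algebra.TensorProduct.tmul_mul_tmul, one_mul]
      rw [e]
      exact mul_mem hy hz
  let φ : Algebra.adjoin K (Set.range x) →+*
      Algebra.adjoin R₁ (Set.range fun i => (1 : R₁) ⊗ₜ[K] x i) :=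
    { toFun := fun c => ⟨(1 : R₁) ⊗ₜ[K] (c : R₂), hmem c c.2⟩
      map_one' := Subtype.ext rfl
      map_mul' := fun a b => Subtype.ext (by
        show (1 : R₁) ⊗ₜ[K] ((a : R₂) * (b : R₂)) = ((1 : R₁) ⊗ₜ[K] (a : R₂)) * ((1 : R₁) ⊗ₜ[K] (b : R₂))
        rw [Algebra.TensorProduct.tmul_mul_tmul, one_mul])
      map_zero' := Subtype.ext (TensorProduct.tmul_zero _ _)
      map_add' := fun a b => Subtype.ext (TensorProduct.tmul_add _ _ _) }
  have hφ : Function.Injective φ := by
    intro a b hab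
    apply Subtype.ext
    apply hinj
    exact congrArg Subtype.val hab
  have hright : ∀ b : R₂, IsAlgebraic
      (Algebra.adjoin R₁ (Set.range fun i => (1 : R₁) ⊗ₜ[K] x i)) ((1 : R₁) ⊗ₜ[K] b) := by
    intro b
    obtain ⟨p, hp0, hp⟩ := hx.isAlgebraic b
    refine ⟨p.map φ, (Polynomial.map_ne_zero_iff hφ).2 hp0, ?_⟩
    rw [Polynomial.aeval_def, Polynomial.eval₂_map]
    rw [Polynomial.aeval_def] at hp
    have h1 := Polynomial.hom_eval₂ p (algebraMap (Algebra.adjoin K (Set.range x)) R₂)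
      (Algebra.TensorProduct.includeRight : R₂ →ₐ[K] R₁ ⊗[K] R₂).toRingHom b
    rw [hp, map_zero] at h1
    exact h1.symm
  have hleft : ∀ a : R₁, IsAlgebraic
      (Algebra.adjoin R₁ (Set.range fun i => (1 : R₁) ⊗ₜ[K] x i)) (a ⊗ₜ[K] (1 : R₂)) := by
    intro a
    exact isAlgebraic_algebraMap (A := R₁ ⊗[K] R₂)
      (⟨a ⊗ₜ[K] (1 : R₂), Subalgebra.algebraMap_mem _ a⟩ :
        Algebra.adjoin R₁ (Set.range fun i => (1 : R₁) ⊗ₜ[K] x i))
  refine ⟨fun t => ?_⟩
  induction t using TensorProduct.induction_on with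
  | zero => exact isAlgebraic_zero
  | tmul a b =>
    have e : a ⊗ₜ[K] b = (a ⊗ₜ[K] (1 : R₂)) * ((1 : R₁) ⊗ₜ[K] b) := by
      rw [Algebra.TensorProduct.tmul_mul_tmul, mul_one, one_mul]
    rw [e]
    exact (hleft a).mul (hright b)
  | add y z hy hz => exact hy.add hz

end Fermat.Agent.S26.Cart
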