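/-
S26 / endgame P, block CART (architect helper60), leaf CA-T1 (Mathlib only): base change of algebraic independence.
-/
import Mathlib

set_option autoImplicit false

universe u

open TensorProduct

namespace Fermat.Agent.S26.Cart

/-- Algebraic independence over a field is preserved by base change.
(The map `MvPolynomial.aeval (fun i => 1 ⊗ₜ x i) : MvPolynomial ι R₁ →ₐ[R₁] R₁ ⊗[K] R₂` is, through
`MvPolynomial.algebraTensorAlgEquiv K R₁ : R₁ ⊗[K] MvPolynomial ι K ≃ₐ[R₁] MvPolynomial ι R₁`, the map
`Algebra.TensorProduct.map (AlgHom.id R₁ R₁) (MvPolynomial.aeval x)` (check on generators: `MvPolynomial.algHom_ext`,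
or `Algebra.TensorProduct.ext`), whose underlying linear map is `LinearMap.lTensor R₁ (aeval x).toLinearMap`, injective because `R₁` is
flat over the field `K` (`Module.Flat.lTensor_preserves_injective_linearMap`).) -/
theorem algebraicIndependent_tmul (K R₁ R₂ : Type u) [Field K] [CommRing R₁] [CommRing R₂]
    [Algebra K R₁] [Algebra K R₂] {ι : Type u} (x : ι → R₂) (hx : AlgebraicIndependent K x) :
    AlgebraicIndependent R₁ (fun i => (1 : R₁) ⊗ₜ[K] x i) := by
  sorry

end Fermat.Agent.S26.Cart
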