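/-
S26 / endgame P, block CART (architect helper60), leaf CA-T3 (Mathlib only): the transcendence degree of a tensor product of
algebras over a field.
-/
import Fermat.Agent.S26.Cart.TrdegIndep
import Fermat.Agent.S26.Cart.TrdegAlg

set_option autoImplicit false

universe u

open TensorProduct

namespace Fermat.Agent.S26.Cart

/-- Base change of a transcendence basis.
(`isTranscendenceBasis_iff_algebraicIndependent_isAlgebraic` on both sides (it needs `Nontrivial` base and `NoZeroDivisors`: `R₁`, `R₂` are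
non-trivial domains because they embed in the domain `R₁ ⊗ R₂`: `Algebra.TensorProduct.includeLeft_injective`,
`includeRight_injective`), `algebraicIndependent_tmul`, `isAlgebraic_adjoin_tmul`.) -/
theorem isTranscendenceBasis_tmul (K R₁ R₂ : Type u) [Field K] [CommRing R₁] [CommRing R₂]
    [Algebra K R₁] [Algebra K R₂] [IsDomain (R₁ ⊗[K] R₂)] {ι : Type u} (x : ι → R₂)
    (hx : IsTranscendenceBasis K x) :
    IsTranscendenceBasis R₁ (fun i => (1 : R₁) ⊗ₜ[K] x i) := by
  sorry

/-- (`Algebra.trdeg_add_eq K R₁ (A := R₁ ⊗[K] R₂)`, a transcendence basis `x` of `R₂` over `K`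
(`exists_isTranscendenceBasis'`), `isTranscendenceBasis_tmul`, `IsTranscendenceBasis.cardinalMk_eq_trdeg` twice.) -/
theorem trdeg_tensorProduct (K R₁ R₂ : Type u) [Field K] [CommRing R₁] [CommRing R₂]
    [Algebra K R₁] [Algebra K R₂] [IsDomain (R₁ ⊗[K] R₂)] :
    Algebra.trdeg K (R₁ ⊗[K] R₂) = Algebra.trdeg K R₁ + Algebra.trdeg K R₂ := by
  sorry

/-- the same in push-out form (`Algebra.IsPushout.equiv K R₁ R₂ T : R₁ ⊗[K] R₂ ≃ₐ[R₁] T`, restrict scalars to `K`,
`AlgEquiv.trdeg_eq`; transport `IsDomain` along the equivalence: `MulEquiv.isDomain`). -/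
theorem trdeg_of_isPushout (K R₁ R₂ T : Type u) [Field K] [CommRing R₁] [CommRing R₂] [CommRing T]
    [IsDomain T] [Algebra K R₁] [Algebra K R₂] [Algebra K T] [Algebra R₁ T] [Algebra R₂ T]
    [IsScalarTower K R₁ T] [IsScalarTower K R₂ T] [Algebra.IsPushout K R₁ R₂ T] :
    Algebra.trdeg K T = Algebra.trdeg K R₁ + Algebra.trdeg K R₂ := by
  sorry

end Fermat.Agent.S26.Cart
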