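/-
S26 / endgame P, block CART (architect helper60), leaf CA-D3a: the transcendence degree of a product, affine case.
-/
import Fermat.Agent.S26.Cart.Defs
import Fermat.Agent.S26.Cart.TrdegTensor

set_option autoImplicit false

universe u

open CategoryTheory CategoryTheory.Limits AlgebraicGeometry

namespace Fermat.Agent.S26.Cart

variable {K : Type u} [Field K]

/-- the affine case.
(`isPushout_appTop_of_isPullback (IsPullback.of_hasPullback x y)` (Mathlib/AlgebraicGeometry/Morphisms/Affine.lean) :
`IsPushout x.appTop y.appTop fst.appTop snd.appTop` in `CommRingCat`; precompose with the isomorphism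
`(Scheme.ΓSpecIso (.of K)).inv`; `CommRingCat.isPushout_iff_isPushout` translates into `Algebra.IsPushout K Γ(X,⊤) Γ(Y,⊤) Γ(P,⊤)` for
the algebra structures `(str x ⊤).toAlgebra`, ...; `trdeg_of_isPushout`; `Γ(P, ⊤)` is a domain since `P` is integral.
`str t ⊤` is `t.appTop ∘ ΓSpecIso.inv` (`Scheme.Hom.appLE` with `⊤`, `Scheme.Hom.app_eq_appLE`).) -/
theorem td_str_pullback_of_isAffine {X Y : Scheme.{u}} [IsAffine X] [IsAffine Y] (x : X ⟶ SK K)
    (y : Y ⟶ SK K) [IsIntegral (pullback x y)] :
    td (str (pullback.fst x y ≫ x) ⊤) = td (str x ⊤) + td (str y ⊤) := by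
  sorry

end Fermat.Agent.S26.Cart
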