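/-
S26 / endgame P, block CART (architect helper60), leaf CA-D3b: the transcendence degree of the function field of a product.
-/
import Fermat.Agent.S26.Cart.DimFF
import Fermat.Agent.S26.Cart.DimProdAff

set_option autoImplicit false

universe u

open CategoryTheory CategoryTheory.Limits AlgebraicGeometry

namespace Fermat.Agent.S26.Cart

variable {K : Type u} [Field K]

/-- **D3.**
(Choose non-empty affine opens `U₁ ⊆ X`, `U₂ ⊆ Y`; `x₁ := U₁.ι ≫ x`, `y₂ := U₂.ι ≫ y`, `P' := pullback x₁ y₂` (affine),
`μ : P' ⟶ pullback x y := pullback.map _ _ _ _ U₁.ι U₂.ι (𝟙 _) _ _`, an open immersion (instance in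
Mathlib/AlgebraicGeometry/Pullbacks.lean or `IsOpenImmersion` stable under base change and composition).  `P'` is non-empty
(`Scheme.Pullback.exists_preimage_pullback`, Mathlib/AlgebraicGeometry/PullbackCarrier.lean: two points over the unique point of
`Spec K`), hence integral (`isIntegral_of_isOpenImmersion`).  `tdim` is invariant under open immersions:
`tdim_comp_of_gdeg_pos` + `gdeg_of_isOpenImmersion` (`Deg/FF.lean`), applied to `μ`, `U₁.ι`, `U₂.ι`.
`td_str_eq_tdim` with `V = ⊤` on the affine integral schemes `P'`, `U₁`, `U₂`; `td_str_pullback_of_isAffine`.) -/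
theorem tdim_pullback {X Y : Scheme.{u}} [IsIntegral X] [IsIntegral Y] (x : X ⟶ SK K)
    (y : Y ⟶ SK K) [IsIntegral (pullback x y)] :
    tdim (pullback.fst x y ≫ x) = tdim x + tdim y := by
  sorry

end Fermat.Agent.S26.Cart
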