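/-
S26 / endgame P, block CART (architect helper60), leaf CA-P1: germs of local generators are associated.
-/
import Fermat.Agent.S26.Cart.Defs

set_option autoImplicit false

universe u

open CategoryTheory CategoryTheory.Limits AlgebraicGeometry

namespace Fermat.Agent.S26.Cart

variable {X Z : Scheme.{u}}

/-- two local generators of an ideal sheaf have associated germs.
(Choose an affine `W` with `z ∈ W ≤ U ⊓ U'` (`X.isBasis_affineOpens.exists_subset_of_mem_open`); by
`IdealSheafData.map_ideal` and `Ideal.map_span`, `span {f|W} = I.ideal W = span {f'|W}`;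
`Ideal.span_singleton_eq_span_singleton` in the domain `Γ(X, W)`; `Associated.map` along the germ map;
`TopCat.Presheaf.germ_res_apply`.) -/
theorem associated_germ [IsIntegral X] (I : X.IdealSheafData) (U U' : X.affineOpens)
    (f : Γ(X, U.1)) (f' : Γ(X, U'.1)) (hf : I.ideal U = Ideal.span {f})
    (hf' : I.ideal U' = Ideal.span {f'}) (z : X) (hz : z ∈ U.1) (hz' : z ∈ U'.1) :
    Associated (X.presheaf.germ U.1 z hz f) (X.presheaf.germ U'.1 z hz' f') := by
  sorry

/-- the image in the function field of the germ of a section does not depend on the point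
(`Scheme.algebraMap_germ_eq_germToFunctionField`, see `Rep.of_germ` in `S26/M/Rep.lean`). -/
theorem toFF_germ_eq [IsIntegral X] (U : X.Opens) (f : Γ(X, U)) (y z : X) (hy : y ∈ U)
    (hz : z ∈ U) :
    toFF y (X.presheaf.germ U y hy f) = toFF z (X.presheaf.germ U z hz f) := by
  sorry

end Fermat.Agent.S26.Cart
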