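/-
S26 / endgame P, block CART (architect helper60), leaf CA-P2: local generators are non-zero, and units off `Z`.
-/
import Fermat.Agent.S26.Cart.Ideal

set_option autoImplicit false

universe u

open CategoryTheory CategoryTheory.Limits AlgebraicGeometry

namespace Fermat.Agent.S26.Cart

variable {X Z : Scheme.{u}}

/-- a point of an affine open lies in a basic open iff the function is not in its prime ideal -/
theorem Pack2.mem_basicOpen_iff {V : X.Opens} (hV : IsAffineOpen V) (y : X)
    (hy : y ∈ V) (f : Γ(X, V)) :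
    y ∈ X.basicOpen f ↔ f ∉ (hV.primeIdealOf ⟨y, hy⟩).asIdeal := by
  let : Algebra Γ(X, V) (X.presheaf.stalk y) :=
    TopCat.Presheaf.algebra_section_stalk X.presheaf (⟨y, hy⟩ : V)
  have : IsLocalization.AtPrime (X.presheaf.stalk y) (hV.primeIdealOf ⟨y, hy⟩).asIdeal :=
    hV.isLocalization_stalk ⟨y, hy⟩
  rw [Scheme.mem_basicOpen X f y hy]
  exact IsLocalization.AtPrime.isUnit_to_map_iff (X.presheaf.stalk y)
    (hV.primeIdealOf ⟨y, hy⟩).asIdeal f

/-- a local generator is non-zero.
(If the germ vanishes then `f = 0` (`germ` is injective on an integral scheme: `AlgebraicGeometry.germ_injective_of_isIntegral`),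
so `j.ker.ideal U = ⊥ ≤` the prime ideal of every point of `U`; by `not_ideal_le_primeIdealOf` `U ⊆ range j`; the range is closed and
contains a non-empty open of the irreducible space `X`, so it is everything (`IsOpen.dense`/`genericPoint`).) -/
theorem germ_ne_zero [IsIntegral X] (j : Z ⟶ X) [IsClosedImmersion j]
    (hne : ∃ x : X, x ∉ Set.range j) (U : X.affineOpens) (f : Γ(X, U.1))
    (hf : j.ker.ideal U = Ideal.span {f}) (y : X) (hy : y ∈ U.1) :
    X.presheaf.germ U.1 y hy f ≠ 0 := by
  intro h0
  have hf0 : f = 0 := by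
    apply germ_injective_of_isIntegral X y hy
    rw [h0, map_zero]
  have hbot : j.ker.ideal U = ⊥ := by
    rw [hf, hf0]
    simp
  have hsub : (U.1 : Set X) ⊆ Set.range j := by
    intro x hx
    by_contra hxr
    apply not_ideal_le_primeIdealOf j U x hx hxr
    rw [hbot]
    exact bot_le
  have hdense : Dense (U.1 : Set X) := U.1.isOpen.dense ⟨y, hy⟩
  have hcl : IsClosed (Set.range j) := j.isClosedEmbedding.isClosed_range
  obtain ⟨x, hx⟩ := hne
  apply hx
  have : closure (U.1 : Set X) ⊆ Set.range j := hcl.closure_subset_iff.2 hsub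
  exact this (hdense x)

/-- a local generator is a unit off `Z`.
(`not_ideal_le_primeIdealOf`: `f ∉` the prime ideal of `x`; `Dict.mem_basicOpen_iff` (copy) and `Scheme.mem_basicOpen`.) -/
theorem isUnit_germ_of_not_mem_range (j : Z ⟶ X) [IsClosedImmersion j] (U : X.affineOpens)
    (f : Γ(X, U.1)) (hf : j.ker.ideal U = Ideal.span {f}) (x : X) (hx : x ∈ U.1)
    (h : x ∉ Set.range j) : IsUnit (X.presheaf.germ U.1 x hx f) := by
  rw [← Scheme.mem_basicOpen X f x hx, Pack2.mem_basicOpen_iff U.2 x hx]
  intro hfx
  apply not_ideal_le_primeIdealOf j U x hx h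
  rw [hf, Ideal.span_singleton_le_iff_mem]
  exact hfx

end Fermat.Agent.S26.Cart
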