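/-
S26 / endgame P, block CART (architect helper60), leaf CA-P3: a locally principal closed subscheme `Z ≠ X` of an integral scheme gives effective Cartier data.
-/
import Fermat.Agent.S26.Cart.Pack1
import Fermat.Agent.S26.Cart.Pack2

set_option autoImplicit false

universe u

open CategoryTheory CategoryTheory.Limits AlgebraicGeometry

namespace Fermat.Agent.S26.Cart

variable {X Z : Scheme.{u}}

/-- **Packaging.**
(`choose U hyU f hf using hLP`; `θ y := germ (f y)`; `ne` by `germ_ne_zero`; `coh` at `x`: the open `U x`; for `y ∈ U x`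
rewrite `toFF x (θ x)` with `toFF_germ_eq` as the image of the germ at `y`; `associated_germ` gives a unit `u` of the stalk at
`y` with `germ_y (f x) * u = germ_y (f y)`; so the quotient is `toFF y u⁻¹`.  `Cuts` holds by construction.
`V := (range j)ᶜ`, open because the range is closed, non-empty by `hne`; `isUnit_germ_of_not_mem_range`.) -/
theorem exists_ecd_of_locally_principal [IsIntegral X] (j : Z ⟶ X) [IsClosedImmersion j]
    (hLP : ∀ y : X, ∃ (U : X.affineOpens) (_ : y ∈ U.1) (f : Γ(X, U.1)),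
      j.ker.ideal U = Ideal.span {f})
    (hne : ∃ x : X, x ∉ Set.range j) :
    ∃ D : ECD X, D.Cuts j ∧ ∃ V : X.Opens, (V : Set X).Nonempty ∧ ∀ x ∈ V, IsUnit (D.θ x) := by
  choose U hyU f hf using hLP
  have hinj : ∀ y : X, Function.Injective (toFF y) := fun y =>
    IsFractionRing.injective (X.presheaf.stalk y) X.functionField
  refine ⟨⟨fun y => X.presheaf.germ (U y).1 y (hyU y) (f y),
    fun y => germ_ne_zero j hne (U y) (f y) (hf y) y (hyU y),
    fun x => ⟨(U x).1, hyU x, fun y hy => ?_⟩⟩, fun y => ⟨U y, hyU y, f y, hf y, rfl⟩,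
    ⟨(Set.range j)ᶜ, j.isClosedEmbedding.isClosed_range.isOpen_compl⟩, ?_, fun x hx => ?_⟩
  · rw [toFF_germ_eq (U x).1 (f x) x y (hyU x) hy]
    obtain ⟨u, hu⟩ := associated_germ j.ker (U x) (U y) (f x) (f y) (hf x) (hf y) y hy (hyU y)
    have h0 : toFF y (X.presheaf.germ (U x).1 y hy (f x)) ≠ 0 := by
      rw [Ne, map_eq_zero_iff _ (hinj y)]
      exact germ_ne_zero j hne (U x) (f x) (hf x) y hy
    have hu0 : toFF y (u : X.presheaf.stalk y) ≠ 0 := by
      rw [Ne, map_eq_zero_iff _ (hinj y)]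
      exact u.ne_zero
    refine ⟨((u⁻¹ : (X.presheaf.stalk y)ˣ) : X.presheaf.stalk y), Units.isUnit _, ?_⟩
    have h1 : toFF y ((u⁻¹ : (X.presheaf.stalk y)ˣ) : X.presheaf.stalk y) * toFF y u = 1 := by
      rw [← map_mul, Units.inv_mul, map_one]
    rw [← hu, map_mul, eq_div_iff (mul_ne_zero h0 hu0), mul_comm _ (toFF y (u : X.presheaf.stalk y)),
      ← mul_assoc, h1, one_mul]
  · exact hne
  · exact isUnit_germ_of_not_mem_range j (U x) (f x) (hf x) x (hyU x) hx

end Fermat.Agent.S26.Cart
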