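/-
S26 / endgame P, block CART (architect helper60): a closed integral `Z ⊆ A` with `Γ × Z ⟶ A` generically finite is an effective
Cartier divisor.  ASSEMBLY.
-/
import Fermat.Agent.S26.Cart.Pack
import Fermat.Agent.S26.Cart.Chart
import Fermat.Agent.S26.Cart.Closed
import Fermat.Agent.S26.Cart.DimProd
import Fermat.Agent.S26.Cart.DimMisc

set_option autoImplicit false

universe u

open CategoryTheory CategoryTheory.Limits AlgebraicGeometry

namespace Fermat.Agent.S26.Cart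

variable {K : Type u} [Field K]

/-- `dim A = dim Z + 1` -/
theorem tdim_eq_add_one [IsAlgClosed K] (𝔸 : AbVar K) (C : Curve 𝔸) (B : Based 𝔸)
    (h : 0 < (C.cons 1 B).deg) : tdim 𝔸.f = tdim B.w + 1 := by
  have h1 : tdim ((C.cons 1 B).τ.hom ≫ 𝔸.f) = tdim 𝔸.f := tdim_comp_of_gdeg_pos 𝔸.f _ h
  have h2 : (C.cons 1 B).τ.hom ≫ 𝔸.f = pullback.fst C.c B.w ≫ C.c := (C.cons 1 B).τ.hom_f
  have : IsIntegral (pullback C.c B.w) := (C.cons 1 B).int
  have h3 : tdim (pullback.fst C.c B.w ≫ C.c) = tdim C.c + tdim B.w := tdim_pullback C.c B.w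
  have h4 : tdim ((C.cons 1 B).τ.hom ≫ 𝔸.f) = tdim (pullback.fst C.c B.w ≫ C.c) := by
    congr 1
  rw [← h1, h4, h3, tdim_curve, add_comm]

theorem dim_of_deg_pos [IsAlgClosed K] (𝔸 : AbVar K) (C : Curve 𝔸) (B : Based 𝔸)
    [IsClosedImmersion B.τ.hom] (h : 0 < (C.cons 1 B).deg) (V : 𝔸.A.affineOpens)
    (hV : ∃ z, B.τ.hom z ∈ V.1) :
    B.τ.hom.ker.ideal V ≠ ⊥ ∧ td (str 𝔸.f V.1) ≤
      td ((Ideal.Quotient.mk (B.τ.hom.ker.ideal V)).comp (str 𝔸.f V.1)) + 1 := by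
  have hne : (V.1 : Set 𝔸.A).Nonempty := by
    obtain ⟨z, hz⟩ := hV
    exact ⟨_, hz⟩
  have h1 : td (str 𝔸.f V.1) = tdim 𝔸.f := td_str_eq_tdim 𝔸.f V.1 V.2 hne
  have h2 : td ((Ideal.Quotient.mk (B.τ.hom.ker.ideal V)).comp (str 𝔸.f V.1)) = tdim B.w := by
    rw [td_quotient_eq_tdim 𝔸.f B.τ.hom V hV]
    congr 1
    exact B.τ.hom_f
  have h3 := tdim_eq_add_one 𝔸 C B h
  refine ⟨fun hbot => ?_, by rw [h1, h2, h3]⟩
  -- if the ideal vanishes then `dim Z = dim A`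
  have h4 : td ((Ideal.Quotient.mk (B.τ.hom.ker.ideal V)).comp (str 𝔸.f V.1)) =
      td (str 𝔸.f V.1) := by
    have hb : Function.Bijective (Ideal.Quotient.mk (B.τ.hom.ker.ideal V)) := by
      refine ⟨?_, Ideal.Quotient.mk_surjective⟩
      rw [injective_iff_map_eq_zero]
      intro a ha
      rw [Ideal.Quotient.eq_zero_iff_mem, hbot] at ha
      exact ha
    exact td_comp_ringEquiv (str 𝔸.f V.1) (RingEquiv.ofBijective _ hb)
  rw [h1, h2] at h4
  have hfin : tdim 𝔸.f < Cardinal.aleph0 := tdim_lt_aleph0 𝔸.f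
  rw [h4] at h3
  obtain ⟨n, hn⟩ := Cardinal.lt_aleph0.1 hfin
  rw [hn] at h3
  have : (n : Cardinal.{u}) = ((n + 1 : ℕ) : Cardinal.{u}) := by
    rw [Nat.cast_add, Nat.cast_one]
    exact h3
  have := Nat.cast_injective (R := Cardinal.{u}) this
  omega

/-- **CartNode.** -/
theorem cartNode [IsAlgClosed K] (𝔸 : AbVar K) : CartNode 𝔸 := by
  intro C B hcl hdeg
  have hdim := fun V hV => dim_of_deg_pos 𝔸 C B hdeg V hV
  have : CompactSpace 𝔸.A := by
    have : QuasiCompact 𝔸.f := inferInstance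
    exact QuasiCompact.compactSpace_of_compactSpace 𝔸.f
  have hne : ∃ x : 𝔸.A, x ∉ Set.range B.τ.hom := by
    obtain ⟨z₀⟩ : Nonempty B.W := inferInstance
    obtain ⟨_, ⟨V, hV, rfl⟩, hzV, -⟩ := 𝔸.A.isBasis_affineOpens.exists_subset_of_mem_open
      (Set.mem_univ (B.τ.hom z₀)) isOpen_univ
    exact exists_not_mem_range B.τ.hom ⟨V, hV⟩ (hdim ⟨V, hV⟩ ⟨z₀, hzV⟩).1
  exact exists_ecd_of_locally_principal B.τ.hom
    (locally_principal_of_closed _ fun y hy => exists_principal_of_closed 𝔸.f B.τ.hom hdim y hy)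
    hne

end Fermat.Agent.S26.Cart
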